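import Mathlib
import Fermat.Agent.GalRep.JacInput
import Fermat.Prelude.Def_CuspForm_HeckeGaloisRepDatum

/-!
# Item 76 (S31): shared definitions

See `NOTES/S31_blueprint.md`.  Definitions only.

* `powTr t d k`: the power-trace sequence `P₀ = 2`, `P₁ = t`, `P_{k+2} = t P_{k+1} - d P_k`
  (so that `P_k (x + y) (x y) = x ^ k + y ^ k`).
* `GoodPrime N S`, `HPoly N S`: the primes `ℓ ∤ N`, `ℓ ∉ S` and the free (noncommutative)
  polynomial ring on them.
* `evalForms`, `evalLat`: evaluation of a polynomial at the Hecke operators on `S₂(Γ₀(N))`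
  (with values in the Hecke algebra away from `S`) and on the lattice `Λ` of a `JacInput`.
* `Faith J S`: every polynomial relation between the `T_ℓ` on `Λ` also holds on `S₂(Γ₀(N))`.
-/

set_option autoImplicit false

open scoped TensorProduct

namespace Fermat.Agent.S31lib

open Fermat.Agent.GalRep ModularCurve

/-- The power-trace sequence: `P₀ = 2`, `P₁ = t`, `P_{k+2} = t * P_{k+1} - d * P_k`. -/
def powTr {A : Type*} [Ring A] (t d : A) : ℕ → A
  | 0 => 2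
  | 1 => t
  | (k + 2) => t * powTr t d (k + 1) - d * powTr t d k

/-- The primes `ℓ ∤ N`, `ℓ ∉ S`: the indices of the generators `T_ℓ` of the Hecke algebra
away from `S` (when `S` contains the primes dividing `N`). -/
abbrev GoodPrime (N : ℕ) (S : Finset ℕ) : Type :=
  {ℓ : Nat.Primes // ¬ (ℓ : ℕ) ∣ N ∧ (ℓ : ℕ) ∉ S}

/-- Noncommutative polynomials in the symbols `T_ℓ`, `ℓ ∤ N`, `ℓ ∉ S`. -/
abbrev HPoly (N : ℕ) (S : Finset ℕ) : Type := FreeAlgebra ℤ (GoodPrime N S)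

/-- Evaluation of a polynomial at the Hecke operators on `S₂(Γ₀(N))`. -/
noncomputable def evalForms (N : ℕ) [NeZero N] (S : Finset ℕ) :
    HPoly N S →ₐ[ℤ] CuspForm.heckeAlgebra N 2 (↑S : Set ℕ) :=
  FreeAlgebra.lift ℤ fun ℓ => CuspForm.heckeAlgebra.T ℓ.1.2 ℓ.2.1 ℓ.2.2

/-- Evaluation of a polynomial at the Hecke operators on the lattice `Λ`. -/
noncomputable def evalLat {N p : ℕ} [NeZero N] (S : Finset ℕ) (J : JacInput N p) :
    HPoly N S →ₐ[ℤ] Module.End ℤ J.Λ :=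
  FreeAlgebra.lift ℤ fun ℓ => J.T ℓ.1

/-- **FAITH**: every polynomial relation between the `T_ℓ` (`ℓ ∤ N`, `ℓ ∉ S`) which holds on the
lattice `Λ` holds on `S₂(Γ₀(N))`. -/
def Faith {N p : ℕ} [NeZero N] (J : JacInput N p) (S : Finset ℕ) : Prop :=
  ∀ P : HPoly N S, evalLat S J P = 0 → evalForms N S P = 0

/-- The primitive form of FAITH asked from item 72/J3 (ES-H): a Hecke-equivariant embedding of
`S₂(Γ₀(N))` in `ℂ ⊗ Λ`. -/
def FaithEmb {N p : ℕ} [NeZero N] (J : JacInput N p) : Prop :=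
  ∃ f : CuspForm (CongruenceSubgroup.Gamma0 N) 2 →ₗ[ℂ] (ℂ ⊗[ℤ] J.Λ), Function.Injective f ∧
    ∀ (ℓ : ℕ) (hℓ : ℓ.Prime) (hℓN : ¬ ℓ ∣ N) (g : CuspForm (CongruenceSubgroup.Gamma0 N) 2),
      f (CuspForm.heckeTLin 2 hℓ hℓN g) = (J.T ⟨ℓ, hℓ⟩).baseChange ℂ (f g)

end Fermat.Agent.S31lib
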