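/-
Item 76 (S31), piece FAI (helper1): a Hecke-equivariant embedding of `S₂(Γ₀(N))` into `ℂ ⊗ Λ`
makes every polynomial relation between the Hecke operators on `Λ` hold on `S₂(Γ₀(N))`.
-/
import Mathlib
import Fermat.Agent.S31lib.Defs

set_option autoImplicit false

open scoped TensorProduct

namespace Fermat.Agent.S31lib

open Fermat.Agent.GalRep ModularCurve

/-- the embedding intertwines every polynomial in the Hecke operators. -/
theorem fai_intertwine {N p : ℕ} [NeZero N] (J : JacInput N p) (S : Finset ℕ)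
    (f : CuspForm (CongruenceSubgroup.Gamma0 N) 2 →ₗ[ℂ] (ℂ ⊗[ℤ] J.Λ))
    (hf : ∀ (ℓ : ℕ) (hℓ : ℓ.Prime) (hℓN : ¬ ℓ ∣ N) (g : CuspForm (CongruenceSubgroup.Gamma0 N) 2),
      f (CuspForm.heckeTLin 2 hℓ hℓN g) = (J.T ⟨ℓ, hℓ⟩).baseChange ℂ (f g))
    (P : HPoly N S) (g : CuspForm (CongruenceSubgroup.Gamma0 N) 2) :
    f ((evalForms N S P : Module.End ℂ (CuspForm (CongruenceSubgroup.Gamma0 N) 2)) g) =
      (evalLat S J P).baseChange ℂ (f g) := by
  induction P using FreeAlgebra.induction generalizing g with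
  | grade0 r =>
    rw [AlgHom.commutes, AlgHom.commutes]
    have h1 : ((algebraMap ℤ (CuspForm.heckeAlgebra N 2 (↑S : Set ℕ)) r :
        CuspForm.heckeAlgebra N 2 (↑S : Set ℕ)) :
        Module.End ℂ (CuspForm (CongruenceSubgroup.Gamma0 N) 2)) =
        r • (1 : Module.End ℂ (CuspForm (CongruenceSubgroup.Gamma0 N) 2)) := by
      rw [Algebra.algebraMap_eq_smul_one]
      rfl
    have h2 : (algebraMap ℤ (Module.End ℤ J.Λ) r) = r • (1 : Module.End ℤ J.Λ) :=
      Algebra.algebraMap_eq_smul_one r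
    rw [h1, h2, LinearMap.smul_apply, Module.End.one_apply, map_zsmul]
    have h3 : (r • (1 : Module.End ℤ J.Λ)).baseChange ℂ =
        r • (1 : Module.End ℂ (ℂ ⊗[ℤ] J.Λ)) := by
      ext x
      simp [TensorProduct.tmul_smul]
    rw [h3, LinearMap.smul_apply, Module.End.one_apply]
  | grade1 ℓ =>
    have h1 : evalForms N S (FreeAlgebra.ι ℤ ℓ) = CuspForm.heckeAlgebra.T ℓ.1.2 ℓ.2.1 ℓ.2.2 := by
      simp [evalForms]
    have h2 : evalLat S J (FreeAlgebra.ι ℤ ℓ) = J.T ℓ.1 := by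
      simp [evalLat]
    rw [h1, h2, CuspForm.heckeAlgebra.coe_T]
    exact hf _ ℓ.1.2 ℓ.2.1 g
  | mul a b ha hb =>
    rw [map_mul, map_mul, Subalgebra.coe_mul, Module.End.mul_apply, ha, hb,
      Module.End.mul_eq_comp, LinearMap.baseChange_comp, LinearMap.comp_apply]
  | add a b ha hb =>
    rw [map_add, map_add, Subalgebra.coe_add, LinearMap.add_apply, map_add, ha, hb,
      LinearMap.baseChange_add, LinearMap.add_apply]

theorem faith_of_faithEmb {N p : ℕ} [NeZero N] (J : JacInput N p) (S : Finset ℕ)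
    (h : FaithEmb J) : Faith J S := by
  obtain ⟨f, hinj, hf⟩ := h
  intro P hP
  apply Subtype.ext
  apply LinearMap.ext
  intro g
  apply hinj
  rw [fai_intertwine J S f hf P g, hP]
  simp

end Fermat.Agent.S31lib
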