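/-
Item 76 (S31), piece CYC (helper8): the mod-`pⁿ` cyclotomic character of `G_ℚ`:
finite level, value `ℓ` at a Frobenius at `ℓ ≠ p`, trivial on inertia at `q ≠ p`.
-/
import Mathlib
import Fermat.Agent.GalRep.Cyclo

set_option autoImplicit false

namespace Fermat.Agent.S31lib

open Fermat.Agent.GalRep

/-- the mod-`pⁿ` cyclotomic character -/
noncomputable def cycChi (p : ℕ) [Fact p.Prime] (n : ℕ) : GQ →* (ZMod (p ^ n))ˣ :=
  (Units.map (PadicInt.toZModPow (p := p) n).toMonoidHom).comp (cyclo_chi p)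

theorem cyc_coe_cycChi (p : ℕ) [Fact p.Prime] (n : ℕ) (σ : GQ) :
    ((cycChi p n σ : (ZMod (p ^ n))ˣ) : ZMod (p ^ n)) =
      PadicInt.toZModPow n ((cyclo_chi p σ : ℤ_[p]ˣ) : ℤ_[p]) := rfl

/-- CYC: the mod-`pⁿ` cyclotomic character. -/
theorem exists_cycloMod (p : ℕ) (hp : p.Prime) (n : ℕ) :
    ∃ χ : GQ →* (ZMod (p ^ n))ˣ,
      (∃ L : IntermediateField ℚ (AlgebraicClosure ℚ), FiniteDimensional ℚ L ∧
        ∀ u : GQ, (∀ a ∈ L, u a = a) → χ u = 1) ∧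
      (∀ ℓ : ℕ, ℓ.Prime → ℓ ≠ p → ∀ A : ValuationSubring (AlgebraicClosure ℚ),
        A.LiesOverPrime ℓ → ∀ σ : GQ, A.IsFrobeniusAt σ ℓ →
          ((χ σ : (ZMod (p ^ n))ˣ) : ZMod (p ^ n)) = (ℓ : ZMod (p ^ n))) ∧
      (∀ q : ℕ, q.Prime → q ≠ p → ∀ A : ValuationSubring (AlgebraicClosure ℚ),
        A.LiesOverPrime q → ∀ σ ∈ A.inertiaSubgroupIn ℚ, χ σ = 1) := by
  have : Fact p.Prime := ⟨hp⟩
  refine ⟨cycChi p n, ?_, ?_, ?_⟩
  · obtain ⟨ζ, hζ⟩ := HasEnoughRootsOfUnity.exists_primitiveRoot (AlgebraicClosure ℚ) (p ^ n)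
    have hN : p ^ n ≠ 0 := pow_ne_zero _ hp.ne_zero
    have hint : IsIntegral ℚ ζ := (hζ.isIntegral (Nat.pos_of_ne_zero hN)).tower_top
    refine ⟨IntermediateField.adjoin ℚ {ζ}, IntermediateField.adjoin.finiteDimensional hint,
      fun σ hσ => ?_⟩
    have hσζ : σ ζ = ζ := hσ ζ (IntermediateField.mem_adjoin_simple_self ℚ ζ)
    have hall : ∀ t : AlgebraicClosure ℚ, t ^ p ^ n = 1 → σ t = t ^ 1 := by
      intro t ht
      have : NeZero (p ^ n) := ⟨hN⟩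
      obtain ⟨i, -, rfl⟩ := hζ.eq_pow_of_pow_eq_one ht
      rw [map_pow, hσζ, pow_one]
    have h1 := cyclo_toZModPow_eq p σ 1 n hall
    rw [Nat.cast_one] at h1
    apply Units.ext
    rw [cyc_coe_cycChi, h1]
    rfl
  · intro ℓ hℓ hℓp A hA σ hσ
    obtain ⟨hσd, hfrob⟩ := hσ
    have hcop : Nat.Coprime p ℓ := (Nat.coprime_primes hp hℓ).mpr (Ne.symm hℓp)
    have h1 := cyclo_chi_eq_natCast p σ ℓ
      (fun m t ht => cyclo_map_root_of_residue p A hA hcop σ hσd ℓ hfrob m t ht)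
    rw [cyc_coe_cycChi, h1, map_natCast]
  · intro q hq hqp A hA σ hσ
    obtain ⟨g, hg, rfl⟩ := hσ
    have hcop : Nat.Coprime p q := (Nat.coprime_primes hp hq).mpr (Ne.symm hqp)
    have hact : ∀ x : IsLocalRing.ResidueField A,
        (⟨(g : GQ), g.2⟩ : A.decompositionSubgroup ℚ) • x = x ^ 1 := by
      intro x
      have h1 : MulSemiringAction.toRingAut (A.decompositionSubgroup ℚ)
          (IsLocalRing.ResidueField A) g = 1 := hg
      have h2 := congrArg (fun f : RingAut (IsLocalRing.ResidueField A) => f x) h1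
      rw [pow_one]
      simpa using h2
    have h1 := cyclo_chi_eq_natCast p (g : GQ) 1
      (fun m t ht => cyclo_map_root_of_residue p A hA hcop (g : GQ) g.2 1 hact m t ht)
    rw [Nat.cast_one] at h1
    apply Units.ext
    show PadicInt.toZModPow n ((cyclo_chi p (g : GQ) : ℤ_[p]ˣ) : ℤ_[p]) = 1
    rw [h1, map_one]

end Fermat.Agent.S31lib
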