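import Mathlib
import Fermat.Agent.S31lib.Defs

/-!
# Item 76 (S31), piece JAC: the Eichler–Shimura relation in power form

For a Frobenius `σ` at `ℓ ∤ N p` and a `p`-power torsion point `x` of `J₀(N)`:
`powTr T_ℓ ℓ k x = σ ^ k • x + ℓ ^ k • (σ ^ k)⁻¹ • x`.
-/

set_option autoImplicit false

namespace Fermat.Agent.S31lib

open Fermat.Agent.GalRep ModularCurve

theorem powTr_zero {A : Type*} [Ring A] (t d : A) : powTr t d 0 = 2 := rfl

theorem powTr_one {A : Type*} [Ring A] (t d : A) : powTr t d 1 = t := rfl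

theorem powTr_succ_succ {A : Type*} [Ring A] (t d : A) (k : ℕ) :
    powTr t d (k + 2) = t * powTr t d (k + 1) - d * powTr t d k := rfl

section

variable {N p : ℕ} [NeZero N]

omit [NeZero N] in
/-- Galois translates of `p`-power torsion points are `p`-power torsion. -/
theorem jac_torsion_smul (σ : GQ) {x : JZero N} (hx : ∃ n : ℕ, p ^ n • x = 0) :
    ∃ n : ℕ, p ^ n • (σ • x) = 0 := by
  obtain ⟨n, hn⟩ := hx
  refine ⟨n, ?_⟩
  have h := map_nsmul (DistribSMul.toAddMonoidHom (JZero N) σ) (p ^ n) x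
  rw [hn, map_zero] at h
  exact h.symm

/-- Eichler–Shimura, solved for `T_ℓ`: `T_ℓ y = σ y + ℓ σ⁻¹ y` on `p`-power torsion. -/
theorem jac_hecke_apply (J : JacInput N p) (ℓ : ℕ) (hℓ : ℓ.Prime)
    (hℓNp : ¬ ℓ ∣ N * p) (A : ValuationSubring (AlgebraicClosure ℚ)) (hA : A.LiesOverPrime ℓ)
    (σ : GQ) (hσ : A.IsFrobeniusAt σ ℓ) (y : JZero N) (hy : ∃ n : ℕ, p ^ n • y = 0) :
    heckeOperatorBar N ⟨ℓ, hℓ⟩ y = σ • y + ℓ • σ⁻¹ • y := by
  have h := J.frob ℓ hℓ hℓNp A hA σ hσ (σ⁻¹ • y) (jac_torsion_smul σ⁻¹ hy)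
  rw [smul_inv_smul] at h
  have h3 : σ • y + ℓ • σ⁻¹ • y - heckeOperatorBar N ⟨ℓ, hℓ⟩ y = 0 := by
    rw [← h]; abel
  exact (sub_eq_zero.mp h3).symm

theorem powTr_heckeBar_apply (J : JacInput N p) (ℓ : ℕ) (hℓ : ℓ.Prime)
    (hℓNp : ¬ ℓ ∣ N * p) (A : ValuationSubring (AlgebraicClosure ℚ)) (hA : A.LiesOverPrime ℓ)
    (σ : GQ) (hσ : A.IsFrobeniusAt σ ℓ) (k : ℕ) (x : JZero N) (hx : ∃ n : ℕ, p ^ n • x = 0) :
    powTr (heckeOperatorBar N ⟨ℓ, hℓ⟩) ((ℓ : ℤ) • (1 : Module.End ℤ (JZero N))) k x =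
      σ ^ k • x + (ℓ ^ k : ℤ) • (σ ^ k)⁻¹ • x := by
  induction k using Nat.strong_induction_on with
  | _ k ih =>
    match k, ih with
    | 0, _ =>
      rw [powTr_zero, pow_zero, pow_zero, inv_one, one_smul, one_smul]
      show ((2 : Module.End ℤ (JZero N))) x = x + x
      rw [← one_add_one_eq_two, LinearMap.add_apply, Module.End.one_apply]
    | 1, _ =>
      rw [powTr_one, pow_one, pow_one, jac_hecke_apply J ℓ hℓ hℓNp A hA σ hσ x hx,
        natCast_zsmul]
    | (k + 2), ih =>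
      have h1 := ih (k + 1) (by omega)
      have h0 := ih k (by omega)
      rw [powTr_succ_succ, LinearMap.sub_apply, Module.End.mul_apply, Module.End.mul_apply, h1, h0,
        map_add, map_zsmul]
      have ha : (∃ n : ℕ, p ^ n • (σ ^ (k + 1) • x) = 0) := jac_torsion_smul _ hx
      have hb : (∃ n : ℕ, p ^ n • ((σ ^ (k + 1))⁻¹ • x) = 0) := jac_torsion_smul _ hx
      rw [jac_hecke_apply J ℓ hℓ hℓNp A hA σ hσ _ ha, jac_hecke_apply J ℓ hℓ hℓNp A hA σ hσ _ hb]
      rw [LinearMap.smul_apply, Module.End.one_apply]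
      have e1 : σ • σ ^ (k + 1) • x = σ ^ (k + 2) • x := by
        rw [smul_smul, ← pow_succ']
      have e2 : σ⁻¹ • σ ^ (k + 1) • x = σ ^ k • x := by
        rw [pow_succ', mul_smul, inv_smul_smul]
      have e3 : σ • (σ ^ (k + 1))⁻¹ • x = (σ ^ k)⁻¹ • x := by
        rw [pow_succ, mul_inv_rev, mul_smul, smul_inv_smul]
      have e4 : σ⁻¹ • (σ ^ (k + 1))⁻¹ • x = (σ ^ (k + 2))⁻¹ • x := by
        rw [smul_smul, ← mul_inv_rev, ← pow_succ]
      rw [e1, e2, e3, e4]
      simp only [← natCast_zsmul]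
      generalize σ ^ (k + 2) • x = X1
      generalize σ ^ k • x = X2
      generalize (σ ^ k)⁻¹ • x = X3
      generalize (σ ^ (k + 2))⁻¹ • x = X4
      module

theorem e_powTr (J : JacInput N p) (ℓ : Nat.Primes) (k n : ℕ) (l : J.Λ) :
    J.e n (powTr (J.T ℓ) (((ℓ : ℕ) : ℤ) • (1 : Module.End ℤ J.Λ)) k l) =
      powTr (heckeOperatorBar N ℓ) (((ℓ : ℕ) : ℤ) • (1 : Module.End ℤ (JZero N))) k (J.e n l) := by
  induction k using Nat.strong_induction_on generalizing l with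
  | _ k ih =>
    match k, ih with
    | 0, _ =>
      rw [powTr_zero, powTr_zero]
      show J.e n ((2 : Module.End ℤ J.Λ) l) = (2 : Module.End ℤ (JZero N)) (J.e n l)
      rw [← one_add_one_eq_two, ← one_add_one_eq_two, LinearMap.add_apply, LinearMap.add_apply,
        Module.End.one_apply, Module.End.one_apply, map_add]
    | 1, _ =>
      rw [powTr_one, powTr_one, J.e_hecke]
    | (k + 2), ih =>
      rw [powTr_succ_succ, powTr_succ_succ, LinearMap.sub_apply, LinearMap.sub_apply,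
        Module.End.mul_apply, Module.End.mul_apply, Module.End.mul_apply, Module.End.mul_apply,
        map_sub, J.e_hecke, ih (k + 1) (by omega), LinearMap.smul_apply, LinearMap.smul_apply,
        Module.End.one_apply, Module.End.one_apply, map_zsmul, ih k (by omega)]

end

end Fermat.Agent.S31lib
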