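/-
S31 (item 76), piece KER (helper10): the trace-kernel lemma.

If `ρ : GaloisRepAdic T` (`T` any local ring) is residually absolutely irreducible and
`tr ρ(τ g) = tr ρ(g)` for all `g`, then `ρ(τ) = 1`.
(Burnside mod `𝔪` + Nakayama: the `ρ(g)` span `End_T(V)`; the trace pairing is perfect.)
-/
import Mathlib
import Fermat.Prelude.Def_GaloisRep_Adic
import Fermat.Agent.S53lib.Dict
import Fermat.Agent.S53lib.Burnside
import Fermat.Agent.S53lib.Schur

set_option autoImplicit false

open scoped TensorProduct

namespace Fermat.Agent.S31lib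

open Fermat.Agent.S53lib IsLocalRing

/-- Absolute irreducibility in matrix form, for ANY matrix model of the residual representation:
no common eigenvector over the algebraic closure. -/
theorem ker_absIrr_matrix_of_equiv {k : Type} [Field k] (ρbar : ResidualGaloisRep k)
    (habs : ρbar.IsAbsolutelyIrreducible) (s : Gal →* M2 k) (hs : MatFin k s)
    (e : ResidualGaloisRep.Equiv (resOfMat s hs) ρbar) :
    ∀ v : Fin 2 → AlgebraicClosure k, v ≠ 0 →
      ¬ ∀ g : Gal, ∃ c : AlgebraicClosure k,
        ((s g).map (algebraMap k (AlgebraicClosure k))).mulVec v = c • v := by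
  intro v hv hall
  have hs' : MatFin (AlgebraicClosure k) (mapMat (algebraMap k (AlgebraicClosure k)) s) :=
    hs.map _
  let E : ResidualGaloisRep.Equiv
      (resOfMat (mapMat (algebraMap k (AlgebraicClosure k)) s) hs')
      (ρbar.baseChange (AlgebraicClosure k)) :=
    (resOfMatBaseChangeEquiv' s hs hs').symm.trans
      (resEquivBaseChange (AlgebraicClosure k) e)
  let f : (Fin 2 → AlgebraicClosure k) ≃ₗ[AlgebraicClosure k]
      (ρbar.baseChange (AlgebraicClosure k)).V := E.toLinearEquiv
  have hf : ∀ (σ : Gal) (y : Fin 2 → AlgebraicClosure k),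
      f ((mapMat (algebraMap k (AlgebraicClosure k)) s σ).mulVec y) =
        (ρbar.baseChange (AlgebraicClosure k)).ρ σ (f y) := fun σ y => E.map_apply σ y
  set w := f v with hw
  have hw0 : w ≠ 0 := fun h0 => hv (f.injective (by rw [← hw, h0, map_zero]))
  have hstab : ∀ σ : Gal, ∀ x ∈ Submodule.span (AlgebraicClosure k) {w},
      (ρbar.baseChange (AlgebraicClosure k)).ρ σ x ∈ Submodule.span (AlgebraicClosure k) {w} := by
    intro σ x hx
    obtain ⟨a, rfl⟩ := Submodule.mem_span_singleton.mp hx
    obtain ⟨c, hc⟩ := hall σ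
    rw [map_smul, hw, ← hf σ v]
    have : (mapMat (algebraMap k (AlgebraicClosure k)) s σ).mulVec v = c • v := hc
    rw [this, map_smul]
    exact Submodule.smul_mem _ _ (Submodule.smul_mem _ _ (Submodule.mem_span_singleton_self _))
  rcases habs _ hstab with h | h
  · exact hw0 ((Submodule.span_singleton_eq_bot).mp h)
  · have h2 : Module.finrank (AlgebraicClosure k) (ρbar.baseChange (AlgebraicClosure k)).V = 2 :=
      (ρbar.baseChange (AlgebraicClosure k)).finrank_eq
    have h1 : Module.finrank (AlgebraicClosure k)
        (Submodule.span (AlgebraicClosure k) {w}) = 1 := finrank_span_singleton hw0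
    rw [h, finrank_top, h2] at h1
    omega

variable {T : Type} [CommRing T] [IsLocalRing T]

/-- A residually absolutely irreducible representation spans the matrix algebra (in any basis). -/
theorem ker_span_eq_top (ρ : GaloisRepAdic T) (habs : ρ.residual.IsAbsolutelyIrreducible)
    (b : Module.Basis (Fin 2) T ρ.V) :
    Submodule.span T (Set.range (matOfBasis ρ b)) = ⊤ := by
  set r := matOfBasis ρ b with hr
  have hcont : MatCont T r := matOfBasis_matCont ρ b
  have hfin : MatFin (ResidueField T) (mapMat (residue T) r) := hcont.residue_matFin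
  have e : ResidualGaloisRep.Equiv (resOfMat (mapMat (residue T) r) hfin) ρ.residual :=
    (ofMatResidualEquiv r hcont hfin).symm.trans (matOfBasisEquiv ρ b).residual
  have hirr := ker_absIrr_matrix_of_equiv ρ.residual habs _ hfin e
  have hspan := burnside_two (mapMat (residue T) r) hirr
  apply span_eq_top_of_residue_span (fun g => r g)
  have : (Set.range fun g => (r g).map (residue T)) = Set.range (mapMat (residue T) r) := by
    congr 1
  rw [this]
  exact hspan

/-- **Piece KER.** Trace-kernel lemma: if `ρ` is residually absolutely irreducible and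
`tr ρ(τ g) = tr ρ(g)` for all `g`, then `ρ(τ) = 1`. -/
theorem ker_eq_one_of_trace (ρ : GaloisRepAdic T) (habs : ρ.residual.IsAbsolutelyIrreducible)
    (τ : AlgebraicClosure ℚ ≃ₐ[ℚ] AlgebraicClosure ℚ)
    (h : ∀ g : AlgebraicClosure ℚ ≃ₐ[ℚ] AlgebraicClosure ℚ, ρ.trace (τ * g) = ρ.trace g) :
    ρ.ρ τ = 1 := by
  classical
  let b : Module.Basis (Fin 2) T ρ.V := Module.finBasisOfFinrankEq T ρ.V ρ.finrank_eq
  set r := matOfBasis ρ b with hr
  have htr : ∀ g, ρ.trace g = (r g).trace := by
    intro g
    rw [GaloisRepAdic.trace, LinearMap.trace_eq_matrix_trace T b, hr, matOfBasis_apply]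
  have hspan := ker_span_eq_top ρ habs b
  -- `tr ((r τ - 1) X) = 0` for all `X`
  have hX : ∀ X : M2 T, ((r τ - 1) * X).trace = 0 := by
    intro X
    have hXs : X ∈ Submodule.span T (Set.range r) := by rw [hspan]; trivial
    induction hXs using Submodule.span_induction with
    | mem X hX =>
      obtain ⟨g, rfl⟩ := hX
      rw [sub_mul, one_mul, Matrix.trace_sub, ← map_mul, ← htr, ← htr, h g, sub_self]
    | zero => simp
    | add X Y _ _ hX hY => rw [mul_add, Matrix.trace_add, hX, hY, add_zero]
    | smul c X _ hX => rw [Matrix.mul_smul, Matrix.trace_smul, hX, smul_zero]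
  -- perfectness of the trace pairing
  have hY : r τ - 1 = 0 := by
    rw [Matrix.ext_iff_trace_mul_right]
    intro X
    rw [hX X, zero_mul, Matrix.trace_zero]
  have hrτ : r τ = 1 := sub_eq_zero.mp hY
  have : LinearMap.toMatrix b b (ρ.ρ τ) = LinearMap.toMatrix b b 1 := by
    rw [← matOfBasis_apply, ← hr, hrτ, LinearMap.toMatrix_one]
  exact (LinearMap.toMatrix b b).injective this

end Fermat.Agent.S31lib
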