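/-
Item 76 (S31), piece LEV (helper8): a finite level for the Galois action on `J₀(N)[pⁿ]`.
-/
import Mathlib
import Fermat.Agent.S31lib.Defs

set_option autoImplicit false

namespace Fermat.Agent.S31lib

open Fermat.Agent.GalRep ModularCurve

/-- the points `e n l` are killed by `pⁿ` -/
theorem lev_pow_smul_e {N p : ℕ} [NeZero N] (J : JacInput N p) (n : ℕ) (l : J.Λ) :
    p ^ n • J.e n l = 0 := by
  rw [← map_nsmul]
  exact (J.e_ker n (p ^ n • l)).2 ⟨l, rfl⟩

/-- LEV: all of `J₀(N)[pⁿ]` is fixed by the Galois group of a finite extension of `ℚ`. -/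
theorem exists_level_torsion {N p : ℕ} [NeZero N] (J : JacInput N p) (n : ℕ) :
    ∃ L : IntermediateField ℚ (AlgebraicClosure ℚ), FiniteDimensional ℚ L ∧
      ∀ u : GQ, (∀ a ∈ L, u a = a) → ∀ x : JZero N, p ^ n • x = 0 → u • x = x := by
  classical
  let b := Module.Free.chooseBasis ℤ J.Λ
  have hstab : ∀ i, ∃ L : IntermediateField ℚ (AlgebraicClosure ℚ), FiniteDimensional ℚ L ∧
      ∀ σ : GQ, (∀ a ∈ L, σ a = a) → σ • J.e n (b i) = J.e n (b i) :=
    fun i => J.stab (J.e n (b i)) ⟨n, lev_pow_smul_e J n (b i)⟩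
  choose Li hLfin hLfix using hstab
  have : ∀ i, FiniteDimensional ℚ (Li i) := hLfin
  refine ⟨⨆ i, Li i, inferInstance, ?_⟩
  intro u hu x hx
  obtain ⟨l, rfl⟩ := J.e_range n x hx
  have hfix : ∀ i, u • J.e n (b i) = J.e n (b i) := by
    intro i
    apply hLfix i u
    intro a ha
    exact hu a ((le_iSup Li i) ha)
  rw [← b.sum_repr l, map_sum, Finset.smul_sum]
  refine Finset.sum_congr rfl fun i _ => ?_
  rw [map_zsmul, smul_comm, hfix i]

end Fermat.Agent.S31lib
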