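/-
Item 76 (S31), piece POW (helper1): the power-trace sequence `powTr`.
-/
import Mathlib
import Fermat.Agent.S31lib.Defs

set_option autoImplicit false

open Polynomial

namespace Fermat.Agent.S31lib

theorem pow_powTr_zero {A : Type*} [Ring A] (t d : A) : powTr t d 0 = 2 := rfl

theorem pow_powTr_one {A : Type*} [Ring A] (t d : A) : powTr t d 1 = t := rfl

theorem pow_powTr_succ_succ {A : Type*} [Ring A] (t d : A) (k : ℕ) :
    powTr t d (k + 2) = t * powTr t d (k + 1) - d * powTr t d k := rfl

/-- two-step induction principle, in the form used below -/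
theorem pow_two_step {P : ℕ → Prop} (h0 : P 0) (h1 : P 1)
    (h2 : ∀ k, P k → P (k + 1) → P (k + 2)) : ∀ k, P k := by
  have : ∀ k, P k ∧ P (k + 1) := by
    intro k
    induction k with
    | zero => exact ⟨h0, h1⟩
    | succ k ih => exact ⟨ih.2, h2 k ih.1 ih.2⟩
  exact fun k => (this k).1

theorem map_powTr {A B : Type*} [Ring A] [Ring B] (φ : A →+* B) (t d : A) (k : ℕ) :
    φ (powTr t d k) = powTr (φ t) (φ d) k := by
  induction k using pow_two_step with
  | h0 =>
    rw [pow_powTr_zero, pow_powTr_zero, ← one_add_one_eq_two, map_add, map_one,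
      one_add_one_eq_two]
  | h1 => rw [pow_powTr_one, pow_powTr_one]
  | h2 k ih0 ih1 =>
    rw [pow_powTr_succ_succ, pow_powTr_succ_succ, map_sub, map_mul, map_mul, ih0, ih1]

theorem powTr_eq_pow_add_pow {A : Type*} [Ring A] (F F' d : A) (h1 : F * F' = d)
    (h2 : F' * F = d) (k : ℕ) : powTr (F + F') d k = F ^ k + F' ^ k := by
  induction k using pow_two_step with
  | h0 => rw [pow_powTr_zero, pow_zero, pow_zero, one_add_one_eq_two]
  | h1 => rw [pow_powTr_one, pow_one, pow_one]
  | h2 k ih0 ih1 =>
    rw [pow_powTr_succ_succ, ih0, ih1]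
    have e1 : F * F' ^ (k + 1) = d * F' ^ k := by
      rw [pow_succ', ← mul_assoc, h1]
    have e2 : F' * F ^ (k + 1) = d * F ^ k := by
      rw [pow_succ', ← mul_assoc, h2]
    have e3 : F * F ^ (k + 1) = F ^ (k + 2) := by
      rw [← pow_succ']
    have e4 : F' * F' ^ (k + 1) = F' ^ (k + 2) := by
      rw [← pow_succ']
    rw [add_mul, mul_add, mul_add, e1, e2, e3, e4, mul_add]
    abel

/-- trace and determinant from the characteristic polynomial in rank `2`. -/
theorem pow_trace_of_charpoly {R : Type*} [CommRing R] [Nontrivial R] {V : Type*}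
    [AddCommGroup V] [Module R V]
    [Module.Free R V] [Module.Finite R V] (hV : Module.finrank R V = 2) (f : Module.End R V)
    (a b : R) (hf : LinearMap.charpoly f = X ^ 2 - C a * X + C b) :
    LinearMap.trace R V f = a := by
  classical
  let bas : Module.Basis (Fin 2) R V := Module.finBasisOfFinrankEq R V hV
  have h : LinearMap.charpoly f = X ^ 2 - C (LinearMap.trace R V f) * X + C (LinearMap.det f) := by
    rw [← LinearMap.charpoly_toMatrix f bas, Matrix.charpoly_fin_two,
      LinearMap.trace_eq_matrix_trace R bas f, ← LinearMap.det_toMatrix bas f]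
  rw [hf] at h
  have h1 := congrArg (fun p => p.coeff 1) h
  simp only [coeff_add, coeff_sub, coeff_X_pow, coeff_C_mul, coeff_X_one, coeff_C] at h1
  norm_num at h1
  exact h1.symm

theorem trace_pow_eq_powTr {R : Type*} [CommRing R] {V : Type*} [AddCommGroup V] [Module R V]
    [Module.Free R V] [Module.Finite R V] (hV : Module.finrank R V = 2) (f : Module.End R V)
    (a b : R) (hf : LinearMap.charpoly f = X ^ 2 - C a * X + C b) (k : ℕ) :
    LinearMap.trace R V (f ^ k) = powTr a b k := by
  rcases subsingleton_or_nontrivial R with hR | hR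
  · exact Subsingleton.elim _ _
  have hCH : f ^ 2 - a • f + b • (1 : Module.End R V) = 0 := by
    have := LinearMap.aeval_self_charpoly f
    rw [hf] at this
    simpa [Algebra.smul_def] using this
  have hrec : ∀ k, f ^ (k + 2) = a • f ^ (k + 1) - b • f ^ k := by
    intro k
    have h1 : f ^ 2 = a • f - b • (1 : Module.End R V) := by
      rw [← sub_eq_zero, ← hCH]
      abel
    calc f ^ (k + 2) = f ^ 2 * f ^ k := by rw [← pow_add, add_comm]
      _ = (a • f - b • (1 : Module.End R V)) * f ^ k := by rw [h1]
      _ = a • f ^ (k + 1) - b • f ^ k := by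
        rw [sub_mul, smul_mul_assoc, smul_mul_assoc, one_mul, ← pow_succ']
  induction k using pow_two_step with
  | h0 =>
    rw [pow_zero, pow_powTr_zero, LinearMap.trace_one, hV]
    norm_num
  | h1 => rw [pow_one, pow_powTr_one, pow_trace_of_charpoly hV f a b hf]
  | h2 k ih0 ih1 =>
    rw [hrec, pow_powTr_succ_succ, map_sub, map_smul, map_smul, ih0, ih1, smul_eq_mul, smul_eq_mul]

end Fermat.Agent.S31lib
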