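import Mathlib
import Fermat.Agent.S31lib.Defs

/-!
# Item 76 (S31), piece SAT: the saturation constant

`exists_sat_const`: there is a constant `c` (depending only on the lattice with its Hecke
operators) such that every polynomial `P` in the Hecke operators which maps `Λ` into `pⁿ Λ`
is, on `S₂(Γ₀(N))`, divisible by `p ^ (n - c)` in the Hecke algebra.

Proof: Artin–Rees for the `ℤ`-submodule `W = range evalLat` of the finite `ℤ`-module `End_ℤ Λ`
and the ideal `(p)`, then `Faith`.
-/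

set_option autoImplicit false

namespace Fermat.Agent.S31lib

open Fermat.Agent.GalRep ModularCurve

/-- An endomorphism of a finite free `ℤ`-module which maps into `a • Λ` is `a` times an
endomorphism. -/
theorem sat_exists_smul_eq {Λ : Type*} [AddCommGroup Λ] [Module.Free ℤ Λ] [Module.Finite ℤ Λ]
    (a : ℤ) (f : Module.End ℤ Λ) (h : ∀ l : Λ, ∃ m : Λ, f l = a • m) :
    ∃ g : Module.End ℤ Λ, f = a • g := by
  classical
  let b := Module.Free.chooseBasis ℤ Λ
  choose m hm using h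
  refine ⟨b.constr ℤ fun i => m (b i), ?_⟩
  refine b.ext fun i => ?_
  rw [LinearMap.smul_apply, Module.Basis.constr_basis, hm]

/-- Artin–Rees for a submodule of a finite module over a Noetherian ring and the ideal `(a)`,
in elementwise form. -/
theorem sat_artinRees {R : Type*} [CommRing R] [IsNoetherianRing R] {E : Type*} [AddCommGroup E]
    [Module R E] [Module.Finite R E] (a : R) (W : Submodule R E) :
    ∃ c : ℕ, ∀ (n : ℕ) (x : E), x ∈ W → (∃ y : E, x = a ^ n • y) →
      ∃ w ∈ W, x = a ^ (n - c) • w := by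
  obtain ⟨c, hc⟩ := Ideal.exists_pow_inf_eq_pow_smul (Ideal.span {a} : Ideal R) W
  refine ⟨c, fun n x hxW hx => ?_⟩
  by_cases hn : c ≤ n
  · have h1 : x ∈ (Ideal.span {a} : Ideal R) ^ n • (⊤ : Submodule R E) ⊓ W := by
      refine ⟨?_, hxW⟩
      obtain ⟨y, rfl⟩ := hx
      rw [Ideal.span_singleton_pow, Submodule.ideal_span_singleton_smul]
      exact Submodule.smul_mem_pointwise_smul y (a ^ n) ⊤ Submodule.mem_top
    rw [hc n hn, Ideal.span_singleton_pow, Submodule.ideal_span_singleton_smul] at h1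
    obtain ⟨w, hw, hwx⟩ := (Submodule.mem_smul_pointwise_iff_exists _ _ _).mp h1
    exact ⟨w, hw.2, hwx.symm⟩
  · refine ⟨x, hxW, ?_⟩
    rw [Nat.sub_eq_zero_of_le (le_of_not_ge hn), pow_zero, one_smul]

/-- **SAT**: the saturation constant. -/
theorem exists_sat_const {N p : ℕ} [NeZero N] (hp : p.Prime) (S : Finset ℕ) (J : JacInput N p)
    (hF : Faith J S) :
    ∃ c : ℕ, ∀ (n : ℕ) (P : HPoly N S),
      (∀ l : J.Λ, ∃ m : J.Λ, evalLat S J P l = (p ^ n : ℤ) • m) →
        ∃ t : CuspForm.heckeAlgebra N 2 (↑S : Set ℕ), evalForms N S P = (p ^ (n - c) : ℤ) • t := by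
  have _ := hp
  obtain ⟨c, hc⟩ := sat_artinRees (R := ℤ) (E := Module.End ℤ J.Λ) (p : ℤ)
    (Subalgebra.toSubmodule (evalLat S J).range)
  refine ⟨c, fun n P hP => ?_⟩
  obtain ⟨g, hg⟩ := sat_exists_smul_eq ((p : ℤ) ^ n) (evalLat S J P) hP
  obtain ⟨w, hw, hwx⟩ := hc n (evalLat S J P) ⟨P, rfl⟩ ⟨g, hg⟩
  obtain ⟨P', rfl⟩ := hw
  refine ⟨evalForms N S P', ?_⟩
  have h0 : evalLat S J (P - ((p : ℤ) ^ (n - c)) • P') = 0 := by
    rw [map_sub, map_smul, sub_eq_zero]
    exact hwx
  have h1 := hF _ h0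
  rw [map_sub, map_smul, sub_eq_zero] at h1
  exact h1

end Fermat.Agent.S31lib
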