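/-
S31 (item 76), piece TRCONG (helper10): traces of an adically continuous representation are
locally constant modulo `𝔪ⁿ`.
-/
import Mathlib
import Fermat.Prelude.Def_GaloisRep_Adic
import Fermat.Agent.S53lib.Dict
import Fermat.Agent.S31lib.Ker

set_option autoImplicit false

namespace Fermat.Agent.S31lib

open Fermat.Agent.S53lib IsLocalRing

variable {T : Type} [CommRing T] [IsLocalRing T]

/-- Matrix form: if `g` and `h` agree on the level `L` of `r` modulo `𝔪ⁿ`, then
`r g ≡ r h` entrywise modulo `𝔪ⁿ`. -/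
theorem trcong_entries (r : Gal →* M2 T) (n : ℕ) (L : IntermediateField ℚ (AlgebraicClosure ℚ))
    (hL : ∀ σ : Gal, (∀ x ∈ L, σ x = x) → ∀ i j, (r σ - 1) i j ∈ maximalIdeal T ^ n)
    (g h : Gal) (hgh : ∀ x ∈ L, g x = h x) (i j : Fin 2) :
    (r h - r g) i j ∈ maximalIdeal T ^ n := by
  have hfix : ∀ x ∈ L, (g⁻¹ * h) x = x := by
    intro x hx
    show g⁻¹ (h x) = x
    rw [← hgh x hx]
    exact g.symm_apply_apply x
  have h1 := hL (g⁻¹ * h) hfix
  have h2 : r h - r g = r g * (r (g⁻¹ * h) - 1) := by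
    rw [mul_sub, mul_one, ← map_mul, mul_inv_cancel_left]
  rw [h2, Matrix.mul_apply]
  exact Ideal.sum_mem _ fun k _ => Ideal.mul_mem_left _ _ (h1 k j)

/-- **Piece TRCONG.** For every `n` there is a finite level `L` such that `tr ρ(g) ≡ tr ρ(h)`
modulo `𝔪ⁿ` whenever `g` and `h` agree on `L`. The level is that of `ρ` modulo `𝔪ⁿ`: any
`L` as in `ρ.isAdicContinuous n` works. -/
theorem trcong_of_level (ρ : GaloisRepAdic T) (n : ℕ)
    (L : IntermediateField ℚ (AlgebraicClosure ℚ))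
    (hL : ∀ σ : AlgebraicClosure ℚ ≃ₐ[ℚ] AlgebraicClosure ℚ, (∀ x ∈ L, σ x = x) →
      ∀ v : ρ.V, ρ.ρ σ v - v ∈ (IsLocalRing.maximalIdeal T ^ n) • (⊤ : Submodule T ρ.V))
    (g h : AlgebraicClosure ℚ ≃ₐ[ℚ] AlgebraicClosure ℚ) (hgh : ∀ x ∈ L, g x = h x) :
    ρ.trace h - ρ.trace g ∈ maximalIdeal T ^ n := by
  classical
  let b : Module.Basis (Fin 2) T ρ.V := Module.finBasisOfFinrankEq T ρ.V ρ.finrank_eq
  set r := matOfBasis ρ b with hr
  have htr : ∀ g, ρ.trace g = (r g).trace := by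
    intro g
    rw [GaloisRepAdic.trace, LinearMap.trace_eq_matrix_trace T b, hr, matOfBasis_apply]
  have hL' : ∀ σ : Gal, (∀ x ∈ L, σ x = x) → ∀ i j, (r σ - 1) i j ∈ maximalIdeal T ^ n := by
    intro σ hσ i j
    have h := dict_repr_mem_of_mem_smul_top b _ (hL σ hσ (b j)) i
    have e : (r σ - 1) i j = b.repr (ρ.ρ σ (b j) - b j) i := by
      rw [Matrix.sub_apply, hr, matOfBasis_apply, LinearMap.toMatrix_apply, map_sub,
        Finsupp.sub_apply, Matrix.one_apply, Module.Basis.repr_self, Finsupp.single_apply]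
      by_cases hij : i = j
      · simp [hij]
      · simp [hij, Ne.symm hij]
    rw [e]
    exact h
  rw [htr, htr, ← Matrix.trace_sub, Matrix.trace]
  exact Ideal.sum_mem _ fun i _ => trcong_entries r n L hL' g h hgh i i

/-- Existence form of `trcong_of_level`. -/
theorem trcong (ρ : GaloisRepAdic T) (n : ℕ) :
    ∃ L : IntermediateField ℚ (AlgebraicClosure ℚ), FiniteDimensional ℚ L ∧
      ∀ g h : AlgebraicClosure ℚ ≃ₐ[ℚ] AlgebraicClosure ℚ, (∀ x ∈ L, g x = h x) →
        ρ.trace h - ρ.trace g ∈ maximalIdeal T ^ n := by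
  obtain ⟨L, hLfin, hL⟩ := ρ.isAdicContinuous n
  exact ⟨L, hLfin, fun g h hgh => trcong_of_level ρ n L hL g h hgh⟩

/-- Separatedness: an element of `⋂ 𝔪ⁿ` in a Noetherian local ring is zero. -/
theorem trcong_eq_of_forall_mem [IsNoetherianRing T] {a b : T}
    (h : ∀ n : ℕ, a - b ∈ maximalIdeal T ^ n) : a = b := by
  have hmem : a - b ∈ ⨅ n : ℕ, maximalIdeal T ^ n := by
    rw [Ideal.mem_iInf]; exact h
  rw [Ideal.iInf_pow_eq_bot_of_isLocalRing _ (IsLocalRing.maximalIdeal.isMaximal T).ne_top] at hmem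
  exact sub_eq_zero.mp hmem

end Fermat.Agent.S31lib

namespace Fermat.Agent.S31lib

open IsLocalRing

/-- **S31 from trace congruences.** If `ρ` is residually absolutely irreducible and for every
inertia element `τ` at `q` the traces of `τ g` and `g` are congruent modulo every power of the
maximal ideal, then `ρ` is unramified at `q`. -/
theorem isUnramifiedAt_of_trace_congr {T : Type} [CommRing T] [IsLocalRing T] [IsNoetherianRing T]
    (ρ : GaloisRepAdic T) (habs : ρ.residual.IsAbsolutelyIrreducible) (q : ℕ)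
    (h : ∀ P : ValuationSubring (AlgebraicClosure ℚ), P.LiesOverPrime q →
      ∀ τ ∈ P.inertiaSubgroupIn ℚ, ∀ (g : AlgebraicClosure ℚ ≃ₐ[ℚ] AlgebraicClosure ℚ) (n : ℕ),
        ρ.trace (τ * g) - ρ.trace g ∈ maximalIdeal T ^ n) :
    ρ.IsUnramifiedAt q := by
  intro P hP τ hτ
  exact ker_eq_one_of_trace ρ habs τ fun g => trcong_eq_of_forall_mem (h P hP τ hτ g)

end Fermat.Agent.S31lib
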