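import Mathlib
import Fermat.Agent.S31lib.Defs
import Fermat.Agent.S31lib.Ker
import Fermat.Agent.S31lib.TrCong
import Fermat.Agent.S31lib.Jac
import Fermat.Agent.S31lib.PowTr
import Fermat.Agent.S31lib.Sat
import Fermat.Agent.S31lib.Level
import Fermat.Agent.S31lib.CycloMod
import Fermat.Agent.GalRep.Interface

/-!
# Item 76 (S31), piece ASM: the assembly

`s31_of_jacInput`: S31 from weak Chebotarev, a `JacInput N p` and `Faith J S`.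
-/

set_option autoImplicit false

open scoped TensorProduct
open Polynomial

namespace Fermat.Agent.S31lib

open Fermat.Agent.GalRep ModularCurve

/-- If `u` acts trivially on `J[pⁿ]`, then `h u` and `h` (and their inverses) act in the same
way on `J[pⁿ]`. -/
theorem asm_smul_eq {N p : ℕ} (n : ℕ) (u h : GQ)
    (hu : ∀ x : JZero N, p ^ n • x = 0 → u • x = x) (x : JZero N) (hx : p ^ n • x = 0) :
    (h * u) • x = h • x ∧ (h * u)⁻¹ • x = h⁻¹ • x := by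
  have htors : ∀ (σ : GQ) (y : JZero N), p ^ n • y = 0 → p ^ n • (σ • y) = 0 := by
    intro σ y hy
    have h := map_nsmul (DistribSMul.toAddMonoidHom (JZero N) σ) (p ^ n) y
    rw [hy, map_zero] at h
    exact h.symm
  constructor
  · rw [mul_smul, hu x hx]
  · rw [mul_inv_rev, mul_smul]
    have h1 := hu (h⁻¹ • x) (htors _ _ hx)
    have h2 : u⁻¹ • (h⁻¹ • x) = u⁻¹ • u • (h⁻¹ • x) := by rw [h1]
    rw [h2, inv_smul_smul]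

/-- The polynomial `P_k(X_ℓ, ℓ)`. -/
noncomputable def frobPoly (N : ℕ) (S : Finset ℕ) (ℓ : GoodPrime N S) (k : ℕ) : HPoly N S :=
  powTr (FreeAlgebra.ι ℤ ℓ) ((((ℓ.1 : ℕ)) : ℤ) • (1 : HPoly N S)) k

theorem evalLat_frobPoly {N p : ℕ} [NeZero N] (S : Finset ℕ) (J : JacInput N p)
    (ℓ : GoodPrime N S) (k : ℕ) :
    evalLat S J (frobPoly N S ℓ k) =
      powTr (J.T ℓ.1) ((((ℓ.1 : ℕ)) : ℤ) • (1 : Module.End ℤ J.Λ)) k := by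
  have h := map_powTr (evalLat S J).toRingHom (FreeAlgebra.ι ℤ ℓ)
    ((((ℓ.1 : ℕ)) : ℤ) • (1 : HPoly N S)) k
  simp only [AlgHom.toRingHom_eq_coe, RingHom.coe_coe, map_zsmul, map_one] at h
  rw [frobPoly, h]
  congr 1
  exact FreeAlgebra.lift_ι_apply _ _

theorem evalForms_frobPoly (N : ℕ) [NeZero N] (S : Finset ℕ) (ℓ : GoodPrime N S) (k : ℕ) :
    evalForms N S (frobPoly N S ℓ k) =
      powTr (CuspForm.heckeAlgebra.T ℓ.1.2 ℓ.2.1 ℓ.2.2 : CuspForm.heckeAlgebra N 2 (↑S : Set ℕ))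
        ((((ℓ.1 : ℕ)) : ℤ) • (1 : CuspForm.heckeAlgebra N 2 (↑S : Set ℕ))) k := by
  have h := map_powTr (evalForms N S).toRingHom (FreeAlgebra.ι ℤ ℓ)
    ((((ℓ.1 : ℕ)) : ℤ) • (1 : HPoly N S)) k
  simp only [AlgHom.toRingHom_eq_coe, RingHom.coe_coe, map_zsmul, map_one] at h
  rw [frobPoly, h]
  congr 1
  exact FreeAlgebra.lift_ι_apply _ _

section Datum

variable {p : ℕ} {N : ℕ} [NeZero N] {S : Finset ℕ}
  {𝒪 : Type} [CommRing 𝒪] [IsDomain 𝒪] [IsDiscreteValuationRing 𝒪]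
  [IsAdicComplete (IsLocalRing.maximalIdeal 𝒪) 𝒪]
  {θ : CuspForm.heckeAlgebra N 2 (↑S : Set ℕ) →+* IsLocalRing.ResidueField 𝒪}
  {T : Type} [CommRing T] [IsLocalRing T] [IsNoetherianRing T]
  [IsAdicComplete (IsLocalRing.maximalIdeal T) T] [Algebra 𝒪 T] [IsLocalHom (algebraMap 𝒪 T)]
  [Module.Finite 𝒪 T] [Module.Free 𝒪 T]

/-- (TR) the trace of `ρ` at a power of a Frobenius is the image of `P_k(T_ℓ, ℓ)`. -/
theorem asm_trace_frob_pow (H : CuspForm.HeckeGaloisRepDatum N (↑S : Set ℕ) 𝒪 θ T)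
    (ℓ : GoodPrime N S) (A : ValuationSubring (AlgebraicClosure ℚ))
    (hA : A.LiesOverPrime (ℓ.1 : ℕ)) (σ : GQ) (hσ : A.IsFrobeniusAt σ (ℓ.1 : ℕ)) (k : ℕ) :
    H.ρ.trace (σ ^ k) = H.π (evalForms N S (frobPoly N S ℓ k)) := by
  have hch := H.charpoly_frob (ℓ.1 : ℕ) ℓ.1.2 ℓ.2.1 ℓ.2.2 A hA σ hσ
  have h1 := trace_pow_eq_powTr H.ρ.finrank_eq (H.ρ.ρ σ) _ _ hch k
  have h2 := map_powTr H.π
    (CuspForm.heckeAlgebra.T ℓ.1.2 ℓ.2.1 ℓ.2.2 : CuspForm.heckeAlgebra N 2 (↑S : Set ℕ))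
    ((((ℓ.1 : ℕ)) : ℤ) • (1 : CuspForm.heckeAlgebra N 2 (↑S : Set ℕ))) k
  rw [evalForms_frobPoly, h2, GaloisRepAdic.trace, map_pow, h1]
  congr 1
  rw [map_zsmul, map_one, zsmul_one, Int.cast_natCast]

end Datum

section Lattice

variable {p : ℕ} {N : ℕ} [NeZero N] {S : Finset ℕ}

/-- (JAC) the difference of two Frobenius polynomials maps `Λ` into `pⁿ Λ`, if the two Frobenius
powers act as `g` resp. `τ g` on `J[pⁿ]`, `τ` acts trivially on `J[pⁿ]`, and `ℓ^k ≡ ℓ'^k'` mod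
`pⁿ`. -/
theorem asm_evalLat_sub (J : JacInput N p) (n : ℕ)
    (ℓ ℓ' : GoodPrime N S) (hℓp : ¬ (ℓ.1 : ℕ) ∣ N * p) (hℓ'p : ¬ (ℓ'.1 : ℕ) ∣ N * p)
    (A A' : ValuationSubring (AlgebraicClosure ℚ))
    (hA : A.LiesOverPrime (ℓ.1 : ℕ)) (hA' : A'.LiesOverPrime (ℓ'.1 : ℕ))
    (σ σ' : GQ) (hσ : A.IsFrobeniusAt σ (ℓ.1 : ℕ)) (hσ' : A'.IsFrobeniusAt σ' (ℓ'.1 : ℕ))
    (k k' : ℕ) (g τ : GQ)
    (hg : ∀ x : JZero N, p ^ n • x = 0 → σ ^ k • x = g • x ∧ (σ ^ k)⁻¹ • x = g⁻¹ • x)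
    (hg' : ∀ x : JZero N, p ^ n • x = 0 →
      σ' ^ k' • x = (τ * g) • x ∧ (σ' ^ k')⁻¹ • x = (τ * g)⁻¹ • x)
    (hτ : ∀ x : JZero N, p ^ n • x = 0 → τ • x = x)
    (hdvd : ((p ^ n : ℕ) : ℤ) ∣ ((ℓ'.1 : ℕ) : ℤ) ^ k' - ((ℓ.1 : ℕ) : ℤ) ^ k) (l : J.Λ) :
    ∃ m : J.Λ, evalLat S J (frobPoly N S ℓ' k' - frobPoly N S ℓ k) l = (p ^ n : ℤ) • m := by
  have htors : ∀ (ς : GQ) (y : JZero N), p ^ n • y = 0 → p ^ n • (ς • y) = 0 := by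
    intro ς y hy
    have h := map_nsmul (DistribSMul.toAddMonoidHom (JZero N) ς) (p ^ n) y
    rw [hy, map_zero] at h
    exact h.symm
  have hx : p ^ n • J.e n l = 0 := by
    rw [← map_nsmul]
    exact (J.e_ker n _).mpr ⟨l, rfl⟩
  have hx' : ∃ n : ℕ, p ^ n • J.e n l = 0 := ⟨n, hx⟩
  have hx'' : ∃ m : ℕ, p ^ m • J.e n l = 0 := ⟨n, hx⟩
  have hτinv : τ⁻¹ • (J.e n l) = J.e n l := by
    have h1 := hτ _ hx
    have h2 : τ⁻¹ • (J.e n l) = τ⁻¹ • τ • (J.e n l) := by rw [h1]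
    rw [h2, inv_smul_smul]
  have key : J.e n (evalLat S J (frobPoly N S ℓ' k' - frobPoly N S ℓ k) l) = 0 := by
    have q1 : powTr (heckeOperatorBar N ℓ'.1) ((((ℓ'.1 : ℕ)) : ℤ) • (1 : Module.End ℤ (JZero N))) k'
        (J.e n l) = σ' ^ k' • (J.e n l) + (((ℓ'.1 : ℕ)) ^ k' : ℤ) • (σ' ^ k')⁻¹ • (J.e n l) :=
      powTr_heckeBar_apply J (ℓ'.1 : ℕ) ℓ'.1.2 hℓ'p A' hA' σ' hσ' k' _ hx''
    have q2 : powTr (heckeOperatorBar N ℓ.1) ((((ℓ.1 : ℕ)) : ℤ) • (1 : Module.End ℤ (JZero N))) k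
        (J.e n l) = σ ^ k • (J.e n l) + (((ℓ.1 : ℕ)) ^ k : ℤ) • (σ ^ k)⁻¹ • (J.e n l) :=
      powTr_heckeBar_apply J (ℓ.1 : ℕ) ℓ.1.2 hℓp A hA σ hσ k _ hx''
    rw [map_sub, LinearMap.sub_apply, map_sub, evalLat_frobPoly, evalLat_frobPoly, e_powTr, e_powTr,
      q1, q2,
      (hg _ hx).1, (hg _ hx).2, (hg' _ hx).1, (hg' _ hx).2, mul_smul, hτ _ (htors g _ hx),
      mul_inv_rev, mul_smul, hτinv]
    obtain ⟨z, hz⟩ := hdvd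
    have h3 : (((ℓ'.1 : ℕ) : ℤ) ^ k') • g⁻¹ • J.e n l - (((ℓ.1 : ℕ) : ℤ) ^ k) • g⁻¹ • J.e n l
        = 0 := by
      rw [← sub_smul, hz, mul_comm, mul_smul, natCast_zsmul, htors g⁻¹ _ hx, smul_zero]
    rw [← h3]
    abel
  obtain ⟨m, hm⟩ := (J.e_ker n _).mp key
  exact ⟨m, by rw [hm, ← natCast_zsmul, Nat.cast_pow]⟩

end Lattice

section Final

variable {p : ℕ} {N : ℕ} [NeZero N] {S : Finset ℕ}
  {𝒪 : Type} [CommRing 𝒪] [IsDomain 𝒪] [IsDiscreteValuationRing 𝒪]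
  [IsAdicComplete (IsLocalRing.maximalIdeal 𝒪) 𝒪]
  {θ : CuspForm.heckeAlgebra N 2 (↑S : Set ℕ) →+* IsLocalRing.ResidueField 𝒪}
  {T : Type} [CommRing T] [IsLocalRing T] [IsNoetherianRing T]
  [IsAdicComplete (IsLocalRing.maximalIdeal T) T] [Algebra 𝒪 T] [IsLocalHom (algebraMap 𝒪 T)]
  [Module.Finite 𝒪 T] [Module.Free 𝒪 T]

omit [IsDomain 𝒪] [IsDiscreteValuationRing 𝒪] [IsAdicComplete (IsLocalRing.maximalIdeal 𝒪) 𝒪]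
  [IsNoetherianRing T] [IsAdicComplete (IsLocalRing.maximalIdeal T) T] [Module.Finite 𝒪 T]
  [Module.Free 𝒪 T] in
theorem asm_natCast_mem [IsLocalRing 𝒪] (hp𝒪 : (p : 𝒪) ∈ IsLocalRing.maximalIdeal 𝒪) :
    (p : T) ∈ IsLocalRing.maximalIdeal T := by
  rw [IsLocalRing.mem_maximalIdeal, mem_nonunits_iff] at hp𝒪 ⊢
  intro h
  apply hp𝒪
  have h2 : IsUnit (algebraMap 𝒪 T (p : 𝒪)) := by rwa [map_natCast]
  exact (isUnit_map_iff (algebraMap 𝒪 T) _).mp h2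

/-- the element `(σ^k)⁻¹ g` fixes `L` pointwise if `g` and `σ^k` agree on `L`. -/
theorem asm_fix (L : IntermediateField ℚ (AlgebraicClosure ℚ)) (g h : GQ)
    (hgh : ∀ x ∈ L, g x = h x) : ∀ x ∈ L, (h⁻¹ * g) x = x := by
  intro x hx
  show h⁻¹ (g x) = x
  rw [hgh x hx]
  exact h.symm_apply_apply x

theorem asm_trace_sub_mem
    (hcheb : WeakCheb) (J : JacInput N p) (hF : Faith J S)
    (hp : p.Prime) (hp𝒪 : (p : 𝒪) ∈ IsLocalRing.maximalIdeal 𝒪) (hpS : p ∈ S)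
    (hNS : ∀ q : ℕ, q.Prime → q ∣ N → q ∈ S)
    (H : CuspForm.HeckeGaloisRepDatum N (↑S : Set ℕ) 𝒪 θ T)
    (q : ℕ) (hq : q.Prime) (hqS : q ∉ S)
    (B : ValuationSubring (AlgebraicClosure ℚ)) (hB : B.LiesOverPrime q)
    (τ : GQ) (hτ : τ ∈ B.inertiaSubgroupIn ℚ) (g : GQ) (n₀ : ℕ) :
    H.ρ.trace (τ * g) - H.ρ.trace g ∈ IsLocalRing.maximalIdeal T ^ n₀ := by
  obtain ⟨c, hc⟩ := exists_sat_const hp S J hF
  obtain ⟨Lρ, hLρfin, hLρ⟩ := trcong H.ρ (n₀ + c)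
  obtain ⟨LJ, hLJfin, hLJ⟩ := exists_level_torsion J (n₀ + c)
  obtain ⟨χ, ⟨Lχ, hLχfin, hLχ⟩, hχfrob, hχin⟩ := exists_cycloMod p hp (n₀ + c)
  have hLfin : FiniteDimensional ℚ (Lρ ⊔ LJ ⊔ Lχ : IntermediateField ℚ (AlgebraicClosure ℚ)) :=
    inferInstance
  have hLρle : Lρ ≤ Lρ ⊔ LJ ⊔ Lχ := le_sup_of_le_left le_sup_left
  have hLJle : LJ ≤ Lρ ⊔ LJ ⊔ Lχ := le_sup_of_le_left le_sup_right
  have hLχle : Lχ ≤ Lρ ⊔ LJ ⊔ Lχ := le_sup_right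
  obtain ⟨ℓ, A, σ, -, k, hℓ, hℓS, hA, hσ, -, hgσ⟩ := hcheb _ hLfin S g
  obtain ⟨ℓ', A', σ', -, k', hℓ', hℓ'S, hA', hσ', -, hgσ'⟩ := hcheb _ hLfin S (τ * g)
  -- the primes are good
  have hℓN : ¬ ℓ ∣ N := fun h => hℓS (hNS ℓ hℓ h)
  have hℓ'N : ¬ ℓ' ∣ N := fun h => hℓ'S (hNS ℓ' hℓ' h)
  have hℓp : ℓ ≠ p := fun h => hℓS (h ▸ hpS)
  have hℓ'p : ℓ' ≠ p := fun h => hℓ'S (h ▸ hpS)
  have hqp : q ≠ p := fun h => hqS (h ▸ hpS)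
  have hqN : ¬ q ∣ N := fun h => hqS (hNS q hq h)
  have hℓNp : ¬ ℓ ∣ N * p := fun h =>
    (hℓ.dvd_mul.mp h).elim hℓN fun h' => hℓp ((Nat.prime_dvd_prime_iff_eq hℓ hp).mp h')
  have hℓ'Np : ¬ ℓ' ∣ N * p := fun h =>
    (hℓ'.dvd_mul.mp h).elim hℓ'N fun h' => hℓ'p ((Nat.prime_dvd_prime_iff_eq hℓ' hp).mp h')
  have hqNp : ¬ q ∣ N * p := fun h =>
    (hq.dvd_mul.mp h).elim hqN fun h' => hqp ((Nat.prime_dvd_prime_iff_eq hq hp).mp h')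
  -- the elements `u`, `u'`
  have hu : ∀ x ∈ (Lρ ⊔ LJ ⊔ Lχ : IntermediateField ℚ (AlgebraicClosure ℚ)),
      ((σ ^ k)⁻¹ * g) x = x := asm_fix _ g (σ ^ k) hgσ
  have hu' : ∀ x ∈ (Lρ ⊔ LJ ⊔ Lχ : IntermediateField ℚ (AlgebraicClosure ℚ)),
      ((σ' ^ k')⁻¹ * (τ * g)) x = x := asm_fix _ (τ * g) (σ' ^ k') hgσ'
  have hgu : σ ^ k * ((σ ^ k)⁻¹ * g) = g := mul_inv_cancel_left _ _
  have hgu' : σ' ^ k' * ((σ' ^ k')⁻¹ * (τ * g)) = τ * g := mul_inv_cancel_left _ _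
  -- traces
  have t1 : H.ρ.trace (σ ^ k) - H.ρ.trace g ∈ IsLocalRing.maximalIdeal T ^ (n₀ + c) :=
    hLρ g (σ ^ k) fun x hx => hgσ x (hLρle hx)
  have t2 : H.ρ.trace (σ' ^ k') - H.ρ.trace (τ * g) ∈ IsLocalRing.maximalIdeal T ^ (n₀ + c) :=
    hLρ (τ * g) (σ' ^ k') fun x hx => hgσ' x (hLρle hx)
  -- the cyclotomic congruence
  have hχτ : χ τ = 1 := hχin q hq hqp B hB τ hτ
  have hχu : χ ((σ ^ k)⁻¹ * g) = 1 := hLχ _ fun a ha => hu a (hLχle ha)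
  have hχu' : χ ((σ' ^ k')⁻¹ * (τ * g)) = 1 := hLχ _ fun a ha => hu' a (hLχle ha)
  have hχ1 : χ g = χ σ ^ k := by
    conv_lhs => rw [← hgu]
    rw [map_mul, hχu, mul_one, map_pow]
  have hχ2 : χ g = χ σ' ^ k' := by
    have : χ (τ * g) = χ σ' ^ k' := by
      conv_lhs => rw [← hgu']
      rw [map_mul, hχu', mul_one, map_pow]
    rw [← this, map_mul, hχτ, one_mul]
  have hcong : ((ℓ' : ZMod (p ^ (n₀ + c))) ^ k') = (ℓ : ZMod (p ^ (n₀ + c))) ^ k := by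
    rw [← hχfrob ℓ hℓ hℓp A hA σ hσ, ← hχfrob ℓ' hℓ' hℓ'p A' hA' σ' hσ', ← Units.val_pow_eq_pow_val,
      ← Units.val_pow_eq_pow_val, ← hχ1, ← hχ2]
  have hdvd : ((p ^ (n₀ + c) : ℕ) : ℤ) ∣ ((ℓ' : ℕ) : ℤ) ^ k' - ((ℓ : ℕ) : ℤ) ^ k := by
    rw [← ZMod.intCast_zmod_eq_zero_iff_dvd]
    push_cast
    rw [hcong, sub_self]
  -- the lattice
  have hJu := hLJ _ fun a ha => hu a (hLJle ha)
  have hJu' := hLJ _ fun a ha => hu' a (hLJle ha)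
  have hJτ : ∀ x : JZero N, p ^ (n₀ + c) • x = 0 → τ • x = x := fun x hx =>
    J.unram q hq hqNp B hB τ hτ x ⟨_, hx⟩
  have hlat := asm_evalLat_sub (S := S) J (n₀ + c) ⟨⟨ℓ, hℓ⟩, hℓN, hℓS⟩ ⟨⟨ℓ', hℓ'⟩, hℓ'N, hℓ'S⟩
    hℓNp hℓ'Np A A' hA hA' σ σ' hσ hσ' k k' g τ
    (fun x hx => by
      have := asm_smul_eq (N := N) (n₀ + c) _ (σ ^ k) hJu x hx
      rw [hgu] at this
      exact ⟨this.1.symm, this.2.symm⟩)
    (fun x hx => by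
      have := asm_smul_eq (N := N) (n₀ + c) _ (σ' ^ k') hJu' x hx
      rw [hgu'] at this
      exact ⟨this.1.symm, this.2.symm⟩)
    hJτ hdvd
  obtain ⟨t, ht⟩ := hc (n₀ + c) _ hlat
  rw [Nat.add_sub_cancel] at ht
  -- conclusion
  have t3 : H.ρ.trace (σ' ^ k') - H.ρ.trace (σ ^ k) ∈ IsLocalRing.maximalIdeal T ^ n₀ := by
    rw [asm_trace_frob_pow H ⟨⟨ℓ', hℓ'⟩, hℓ'N, hℓ'S⟩ A' hA' σ' hσ' k',
      asm_trace_frob_pow H ⟨⟨ℓ, hℓ⟩, hℓN, hℓS⟩ A hA σ hσ k, ← map_sub, ← map_sub, ht, map_zsmul,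
      zsmul_eq_mul]
    apply Ideal.mul_mem_right
    push_cast
    exact Ideal.pow_mem_pow (asm_natCast_mem hp𝒪) n₀
  have hle : IsLocalRing.maximalIdeal T ^ (n₀ + c) ≤ IsLocalRing.maximalIdeal T ^ n₀ :=
    Ideal.pow_le_pow_right (Nat.le_add_right _ _)
  have : H.ρ.trace (τ * g) - H.ρ.trace g =
      (H.ρ.trace (σ' ^ k') - H.ρ.trace (σ ^ k)) + (H.ρ.trace (σ ^ k) - H.ρ.trace g)
        - (H.ρ.trace (σ' ^ k') - H.ρ.trace (τ * g)) := by ring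
  rw [this]
  exact Ideal.sub_mem _ (Ideal.add_mem _ t3 (hle t1)) (hle t2)

/-- **S31 from the arithmetic input**: a Hecke–Galois datum is unramified outside `S`. -/
theorem s31_of_jacInput
    (hcheb : WeakCheb) (J : JacInput N p) (hF : Faith J S)
    (hp : p.Prime) (hp𝒪 : (p : 𝒪) ∈ IsLocalRing.maximalIdeal 𝒪) (hpS : p ∈ S)
    (hNS : ∀ q : ℕ, q.Prime → q ∣ N → q ∈ S)
    (H : CuspForm.HeckeGaloisRepDatum N (↑S : Set ℕ) 𝒪 θ T)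
    (q : ℕ) (hq : q.Prime) (hqS : q ∉ S) :
    H.ρ.IsUnramifiedAt q :=
  isUnramifiedAt_of_trace_congr H.ρ H.residual_absIrr q fun B hB τ hτ g n =>
    asm_trace_sub_mem hcheb J hF hp hp𝒪 hpS hNS H q hq hqS B hB τ hτ g n

end Final

end Fermat.Agent.S31lib
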