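import Mathlib
import Fermat.Agent.S31lib.Main
import Fermat.Agent.S31lib.Faith
import Fermat.Agent.LatE.LatStatement
import Fermat.Agent.GalRep.S30Of2
import Fermat.Agent.GalRep.HeckeLatTMult
import Fermat.Agent.Cheb.WeakQbar

/-!
# Item 76 (S31): final wiring

`JacInput N p` with `Λ = HLat N`, `T = heckeLatT N` (Layer E) **together with** the faithful
embedding `FaithEmb` (the existential `LatStatement` forgets the lattice, so the tuple is rebuilt
here with the concrete lattice), and S31 from the statement of S37 (item 68) alone.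
-/

set_option autoImplicit false
open scoped MatrixGroups ModularForm Manifold Topology TensorProduct
open UpperHalfPlane ModularForm CongruenceSubgroup Filter AlgebraicCurve ModularCurve
open Fermat.Agent.S24lib Fermat.Agent.AJlib Fermat.Agent.S22lib

namespace Fermat.Agent.S31lib

open Fermat.Agent.GalRep Fermat.Agent.LatE

/-- The arithmetic input of S31 with the concrete Hecke lattice `HLat N`, `heckeLatT N`. -/
theorem exists_jacInput_faithEmb (hS37 : S37Statement) (N p : ℕ) [NeZero N] [Fact p.Prime] :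
    ∃ J : JacInput N p, FaithEmb J := by
  have hp : 0 < p := Nat.Prime.pos Fact.out
  have hpk : ∀ k : ℕ, 0 < p ^ k := fun k => pow_pos hp k
  have F := formL_of_pieces N
  have h3 : ∀ (k : ℕ) (l : HLat N), p • F.e (p ^ (k + 1)) (hpk (k + 1)) l
      = F.e (p ^ k) (hpk k) l := by
    intro k l
    rw [F.e_congr (pow_succ p k) (hpk (k + 1)) (Nat.mul_pos (hpk k) hp) l]
    exact F.e_mul (p ^ k) p (hpk k) hp l
  have h4 : ∀ (k : ℕ) (ℓ : Nat.Primes) (l : HLat N),
      F.e (p ^ k) (hpk k) (heckeLatT N ℓ l) = heckeOperatorBar N ℓ (F.e (p ^ k) (hpk k) l) := by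
    intro k ℓ l
    have : NeZero (ℓ : ℕ) := ⟨ℓ.2.ne_zero⟩
    obtain ⟨X, hX, γ, σ, γ', hreps, hrel, -, hT⟩ := exists_cosetData N ℓ
    have hnp : NormProdFor N ℓ γ := normProdFor_of_isReps N ℓ ℓ.2 γ hreps
    apply F.e_eq
    refine hasTorsionChar_hecke_of (p ^ k) (hpk k) ℓ γ σ γ' hrel hnp _ (latChar N (p ^ k) l.1) _
      (fun g => ?_) (F.e_spec (p ^ k) (hpk k) l)
    rw [latChar_apply, heckeLatT_coe, hT ℤ l.1 g, lef_zpow_sum]
    rfl
  refine ⟨JacInput.ofStatements N p hp hS37 hcStatement galCommStatement (HLat N) (heckeLatT N)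
    (fun k => F.e (p ^ k) (hpk k)) (fun k x hx => F.e_range (p ^ k) (hpk k) x hx)
    (fun k l => F.e_ker (p ^ k) (hpk k) l) h3 h4
    (fun K _ _ χ => finrank_eigenSub_heckeLatT N K χ), ?_⟩
  exact exists_faithEmb_heckeLatT N

section Final

variable {p : ℕ} {N : ℕ} [NeZero N] {S : Finset ℕ}
  {𝒪 : Type} [CommRing 𝒪] [IsDomain 𝒪] [IsDiscreteValuationRing 𝒪]
  [IsAdicComplete (IsLocalRing.maximalIdeal 𝒪) 𝒪]
  {θ : CuspForm.heckeAlgebra N 2 (↑S : Set ℕ) →+* IsLocalRing.ResidueField 𝒪}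
  {T : Type} [CommRing T] [IsLocalRing T] [IsNoetherianRing T]
  [IsAdicComplete (IsLocalRing.maximalIdeal T) T] [Algebra 𝒪 T] [IsLocalHom (algebraMap 𝒪 T)]
  [Module.Finite 𝒪 T] [Module.Free 𝒪 T]

/-- **S31 from S37** (item 68): everything else is discharged. -/
theorem s31_of_s37 (hS37 : S37Statement) (hp : p.Prime)
    (hp𝒪 : (p : 𝒪) ∈ IsLocalRing.maximalIdeal 𝒪) (hpS : p ∈ S)
    (hNS : ∀ q : ℕ, q.Prime → q ∣ N → q ∈ S)
    (H : CuspForm.HeckeGaloisRepDatum N (↑S : Set ℕ) 𝒪 θ T)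
    (q : ℕ) (hq : q.Prime) (hqS : q ∉ S) :
    H.ρ.IsUnramifiedAt q := by
  have : Fact p.Prime := ⟨hp⟩
  obtain ⟨J, hJ⟩ := exists_jacInput_faithEmb hS37 N p
  exact s31_of_jacInput weakCheb J (faith_of_faithEmb J S hJ) hp hp𝒪 hpS hNS H q hq hqS

end Final

end Fermat.Agent.S31lib
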